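import Fermat.Agent.HilbertSeventeen.IVTRealClosed
import Fermat.Agent.HilbertSeventeen.RealClosedFTA
import Fermat.Agent.TarskiSeidenberg.Orderings

/-!
# Every ordered field has a real closure

The square roots of the positive elements generate a semireal field; it lies in a field with the
intermediate value property, and the relative algebraic closure there is a real closure.
-/

set_option autoImplicit false

noncomputable section

open Polynomial

namespace Fermat.Agent.RealClosure

open Fermat.Agent.HilbertSeventeen

universe u

/-- A real closed algebraic extension whose ordering extends the given one. -/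
structure IsRealClosure (K R : Type*) [Field K] [LinearOrder K] [IsStrictOrderedRing K] [Field R]
    [LinearOrder R] [IsStrictOrderedRing R] [Algebra K R] : Prop where
  realClosed : IsRealClosed R
  algebraic : Algebra.IsAlgebraic K R
  strictMono : StrictMono (algebraMap K R)

theorem IsRealClosure.polyIVT {K R : Type*} [Field K] [LinearOrder K] [IsStrictOrderedRing K]
    [Field R] [LinearOrder R] [IsStrictOrderedRing R] [Algebra K R] (h : IsRealClosure K R) :
    PolyIVT R :=
  have := h.realClosed
  polyIVT_of_isRealClosed

variable (K : Type u) [Field K] [LinearOrder K] [IsStrictOrderedRing K]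

/-- The square roots of the positive elements in an algebraic closure. -/
def positiveRoots : Set (AlgebraicClosure K) :=
  {x | ∃ a : K, 0 < a ∧ x ^ 2 = algebraMap K (AlgebraicClosure K) a}

theorem isSemireal_adjoin_positiveRoots :
    IsSemireal (IntermediateField.adjoin K (positiveRoots K)) := by
  classical
  refine IsSemireal.of_not_isSumSq_neg_one fun h => ?_
  obtain ⟨n, g, hg⟩ := exists_fin_of_isSumSq h
  choose T hTS hT using fun i =>
    IntermediateField.exists_finset_of_mem_adjoin (g i).2
  set U : Finset (AlgebraicClosure K) := Finset.univ.biUnion T with hU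
  have hUS : ∀ x ∈ U, x ∈ positiveRoots K := fun x hx => by
    obtain ⟨i, -, hi⟩ := Finset.mem_biUnion.1 hx
    exact hTS i hi
  choose a ha hax using hUS
  set c : List K := U.attach.toList.map fun x => a x.1 x.2 with hc
  obtain ⟨L, _, _, f, hf⟩ := TarskiSeidenberg.exists_semireal_squares c fun hneg => by
    have key : ∀ z ∈ TarskiSeidenberg.genCone {x : K | x ∈ c}, 0 ≤ z := fun z hz => by
      induction hz using Subsemiring.closure_induction with
      | mem z hz =>
        rcases hz with hz | hz
        · exact IsSquare.nonneg hz
        · obtain ⟨x, -, rfl⟩ := List.mem_map.1 hz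
          exact (ha x.1 x.2).le
      | zero => exact le_rfl
      | one => exact zero_le_one
      | add y z _ _ hy hz => exact add_nonneg hy hz
      | mul y z _ _ hy hz => exact mul_nonneg hy hz
    exact (neg_one_lt_zero (R := K)).not_ge (key _ hneg)
  let _ : Algebra K L := f.toAlgebra
  obtain ⟨φ⟩ := IntermediateField.nonempty_algHom_adjoin_of_splits (F := K) (K := L)
    (S := (U : Set (AlgebraicClosure K))) fun x hx => by
      have hx' : x ∈ U := hx
      obtain ⟨r, hr⟩ := hf (a x hx') (List.mem_map.2 ⟨⟨x, hx'⟩, by simp, rfl⟩)
      have hd : minpoly K x ∣ X ^ 2 - C (a x hx') := minpoly.dvd K x (by simp [hax x hx'])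
      refine ⟨Algebra.IsIntegral.isIntegral x, ?_⟩
      refine Splits.of_dvd (g := ((X : L[X]) - C r) * (X - C (-r)))
        ((Splits.X_sub_C r).mul (Splits.X_sub_C (-r)))
        (mul_ne_zero (X_sub_C_ne_zero r) (X_sub_C_ne_zero (-r))) ?_
      refine (map_dvd (mapRingHom (algebraMap K L)) hd).trans (dvd_of_eq ?_)
      rw [coe_mapRingHom, Polynomial.map_sub, Polynomial.map_pow, map_X, map_C,
        show algebraMap K L (a x hx') = f (a x hx') from rfl, hr, map_mul, map_neg]
      ring
  have hmem : ∀ i, (g i : AlgebraicClosure K) ∈
      IntermediateField.adjoin K (U : Set (AlgebraicClosure K)) := fun i =>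
    IntermediateField.adjoin.mono K _ _ (Finset.coe_subset.2
      (Finset.subset_biUnion_of_mem T (Finset.mem_univ i))) (hT i)
  let g' : Fin n → IntermediateField.adjoin K (U : Set (AlgebraicClosure K)) := fun i =>
    ⟨g i, hmem i⟩
  have he : (-1 : IntermediateField.adjoin K (U : Set (AlgebraicClosure K))) =
      ∑ i, g' i * g' i := Subtype.ext (by
    simpa [g'] using congrArg (Subtype.val : _ → AlgebraicClosure K) hg)
  refine IsSemireal.not_isSumSq_neg_one L ?_
  have := congrArg φ he
  rw [map_neg, map_one, map_sum] at this
  rw [this]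
  exact IsSumSq.sum fun i _ => by rw [map_mul]; exact IsSumSq.mul_self _

/-- An ordered field embeds in an ordered field with the intermediate value property. -/
theorem exists_polyIVT_over :
    ∃ (R : Type u) (_ : Field R) (_ : LinearOrder R) (_ : IsStrictOrderedRing R) (_ : PolyIVT R)
      (g : K →+* R), StrictMono g := by
  have := isSemireal_adjoin_positiveRoots K
  obtain ⟨R, _, _, _, _, ⟨ψ⟩⟩ :=
    exists_polyIVT_extension (IntermediateField.adjoin K (positiveRoots K))
  refine ⟨R, inferInstance, inferInstance, inferInstance, inferInstance,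
    ψ.comp (algebraMap K _), fun a b hab => ?_⟩
  obtain ⟨r, hr⟩ := IsAlgClosed.exists_pow_nat_eq
    (algebraMap K (AlgebraicClosure K) (b - a)) zero_lt_two
  let r' : IntermediateField.adjoin K (positiveRoots K) :=
    ⟨r, IntermediateField.subset_adjoin K _ ⟨b - a, sub_pos.2 hab, hr⟩⟩
  have e : algebraMap K (IntermediateField.adjoin K (positiveRoots K)) (b - a) = r' * r' :=
    Subtype.ext (by simpa [r', sq] using hr.symm)
  have h0 : 0 ≤ ψ (algebraMap K _ (b - a)) := by rw [e, map_mul]; exact mul_self_nonneg _
  have hne : ψ (algebraMap K _ (b - a)) ≠ 0 := by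
    rw [Ne, map_eq_zero, map_eq_zero, sub_eq_zero]
    exact hab.ne'
  have := lt_of_le_of_ne h0 hne.symm
  rw [map_sub, map_sub, sub_pos] at this
  exact this

/-- The relative algebraic closure in a real closed field is a real closure. -/
theorem isRealClosure_algebraicClosure {R : Type*} [Field R] [LinearOrder R]
    [IsStrictOrderedRing R] [PolyIVT R] [Algebra K R] (hK : StrictMono (algebraMap K R)) :
    IsRealClosure K (algebraicClosure K R) := by
  let R₀ := algebraicClosure K R
  have halg : Algebra.IsAlgebraic K R₀ := algebraicClosure.isAlgebraic K R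
  have : PolyIVT R₀ := ⟨fun p a b hab hp => by
    have key : ∀ x : R₀, (p.map (algebraMap R₀ R)).eval (x : R) =
        ((p.eval x : R₀) : R) := fun x => by
      rw [show (x : R) = algebraMap R₀ R x from rfl, eval_map_algebraMap,
        aeval_algebraMap_apply_eq_algebraMap_eval]
      rfl
    obtain ⟨c, h1, h2, h3⟩ := PolyIVT.exists_root (p.map (algebraMap R₀ R)) (a : R) (b : R) hab
      (by rw [key, key]; exact_mod_cast hp)
    have hp0 : p ≠ 0 := fun e => by simp [e] at hp
    have hc : IsAlgebraic R₀ c := ⟨p, hp0, by rwa [← eval_map_algebraMap]⟩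
    have hc' : IsAlgebraic K c := hc.restrictScalars K
    refine ⟨⟨c, mem_algebraicClosure_iff.2 hc'⟩, h1, h2, Subtype.ext ?_⟩
    have := key ⟨c, mem_algebraicClosure_iff.2 hc'⟩
    rw [h3] at this
    exact this.symm⟩
  exact ⟨isRealClosed_of_polyIVT R₀, halg, fun a b hab => hK hab⟩

/-- **Existence of real closures.** -/
theorem exists_realClosure :
    ∃ (R : Type u) (_ : Field R) (_ : LinearOrder R) (_ : IsStrictOrderedRing R)
      (_ : Algebra K R), IsRealClosure K R := by
  obtain ⟨R, _, _, _, _, g, hg⟩ := exists_polyIVT_over K
  let _ : Algebra K R := g.toAlgebra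
  exact ⟨algebraicClosure K R, inferInstance, inferInstance, inferInstance, inferInstance,
    isRealClosure_algebraicClosure K hg⟩

end Fermat.Agent.RealClosure
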