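import Fermat.Agent.RealClosure.Uniqueness

/-!
# Orderings of algebraic extensions

The orderings of an algebraic extension that extend the given one correspond to its embeddings in
a real closed field. For a number field they correspond to the real places.
-/

set_option autoImplicit false
set_option linter.unusedSectionVars false

noncomputable section

open Polynomial

namespace Fermat.Agent.RealClosure

open Fermat.Agent.HilbertSeventeen

universe u

variable {K : Type*} [Field K] [LinearOrder K] [IsStrictOrderedRing K]

/-- **A real closure maps to every real closed field over the ground field, in one way.** -/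
theorem exists_unique_algHom {R S : Type*} [Field R] [LinearOrder R] [IsStrictOrderedRing R]
    [Algebra K R] [Field S] [LinearOrder S] [IsStrictOrderedRing S] [IsRealClosed S] [Algebra K S]
    (hR : IsRealClosure K R) (hS : StrictMono (algebraMap K S)) :
    ∃ f : R →ₐ[K] S, StrictMono f ∧ ∀ f' : R →ₐ[K] S, f' = f := by
  have := hR.polyIVT
  have := hR.algebraic
  have := polyIVT_of_isRealClosed (R := S)
  exact ⟨transferHom hR.strictMono hS,
    strictMono_ringHom (transferHom hR.strictMono hS : R →+* S),
    algHom_eq_transferHom hR.strictMono hS⟩

/-- **Uniqueness of real closures**, up to a unique isomorphism, which keeps the order. -/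
theorem exists_unique_algEquiv {R R' : Type*} [Field R] [LinearOrder R] [IsStrictOrderedRing R]
    [Algebra K R] [Field R'] [LinearOrder R'] [IsStrictOrderedRing R'] [Algebra K R']
    (hR : IsRealClosure K R) (hR' : IsRealClosure K R') :
    ∃ e : R ≃ₐ[K] R', StrictMono e ∧ ∀ e' : R ≃ₐ[K] R', e' = e := by
  have := hR.realClosed
  have := hR'.realClosed
  obtain ⟨f, hf, huniq⟩ := exists_unique_algHom hR hR'.strictMono
  obtain ⟨g, -, -⟩ := exists_unique_algHom hR' hR.strictMono
  obtain ⟨i, -, hi⟩ := exists_unique_algHom hR hR.strictMono
  obtain ⟨j, -, hj⟩ := exists_unique_algHom hR' hR'.strictMono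
  refine ⟨AlgEquiv.ofAlgHom f g ((hj _).trans (hj (AlgHom.id K R')).symm)
    ((hi _).trans (hi (AlgHom.id K R)).symm), hf, fun e' => AlgEquiv.ext fun x => ?_⟩
  exact DFunLike.congr_fun (huniq e') x

/-- A real closure has no automorphism over the ground field but the identity. -/
theorem algEquiv_eq_refl {R : Type*} [Field R] [LinearOrder R] [IsStrictOrderedRing R]
    [Algebra K R] (hR : IsRealClosure K R) (e : R ≃ₐ[K] R) : e = AlgEquiv.refl :=
  have ⟨_, _, h⟩ := exists_unique_algEquiv hR hR
  (h e).trans (h _).symm

section orderings

variable {F : Type u} [Field F] [Algebra K F] [Algebra.IsAlgebraic K F]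
variable {S : Type*} [Field S] [LinearOrder S] [IsStrictOrderedRing S] [IsRealClosed S]
  [Algebra K S]

/-- An ordered algebraic extension has exactly one ordered embedding in a real closed field. -/
theorem exists_unique_embedding [LinearOrder F] [IsStrictOrderedRing F]
    (hF : StrictMono (algebraMap K F)) (hS : StrictMono (algebraMap K S)) :
    ∃! g : F →ₐ[K] S, StrictMono g := by
  have := polyIVT_of_isRealClosed (R := S)
  obtain ⟨R, _, _, _, _, hR⟩ := exists_realClosure F
  let _ : Algebra K R := ((algebraMap F R).comp (algebraMap K F)).toAlgebra
  have : IsScalarTower K F R := IsScalarTower.of_algebraMap_eq fun _ => rfl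
  have := hR.algebraic
  have := hR.polyIVT
  have hKR : IsRealClosure K R :=
    ⟨hR.realClosed, Algebra.IsAlgebraic.trans K F R, hR.strictMono.comp hF⟩
  obtain ⟨φ, hφ, huniq⟩ := exists_unique_algHom hKR hS
  refine ⟨φ.comp (IsScalarTower.toAlgHom K F R), hφ.comp hR.strictMono, fun g hg => ?_⟩
  let _ : Algebra F S := (g : F →+* S).toAlgebra
  obtain ⟨ψ, -, -⟩ := exists_unique_algHom hR (S := S) hg
  let ψ' : R →ₐ[K] S := ⟨(ψ : R →+* S), fun k => by
    show ψ (algebraMap F R (algebraMap K F k)) = algebraMap K S k
    rw [AlgHom.commutes]
    exact g.commutes k⟩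
  refine AlgHom.ext fun x => ?_
  show g x = φ (algebraMap F R x)
  rw [← huniq ψ']
  exact (ψ.commutes x).symm

variable (K F) in
/-- The orderings of `F` that extend the ordering of `K`. -/
def Extends : Type u :=
  {o : LinearOrder F // @IsStrictOrderedRing F _ o.toPartialOrder ∧
    @StrictMono K F _ o.toPartialOrder.toPreorder (algebraMap K F)}

theorem exists_unique_embedding_extends (hS : StrictMono (algebraMap K S)) (o : Extends K F) :
    ∃! g : F →ₐ[K] S, @StrictMono F S o.1.toPartialOrder.toPreorder _ g := by
  let _ : LinearOrder F := o.1
  have : IsStrictOrderedRing F := o.2.1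
  exact exists_unique_embedding o.2.2 hS

/-- The ordering pulled back along an embedding. -/
def pullback (hS : StrictMono (algebraMap K S)) (g : F →ₐ[K] S) : Extends K F :=
  ⟨LinearOrder.lift' g g.injective, by
    let _ : LinearOrder F := LinearOrder.lift' g g.injective
    refine ⟨Function.Injective.isStrictOrderedRing g (map_zero g) (map_one g) (map_add g)
      (map_mul g) Iff.rfl Iff.rfl, fun a b hab => ?_⟩
    show g (algebraMap K F a) < g (algebraMap K F b)
    rw [AlgHom.commutes, AlgHom.commutes]
    exact hS hab⟩

/-- **The orderings that extend the given one are the embeddings in a real closed field.** -/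
def extendsEquiv (hS : StrictMono (algebraMap K S)) : Extends K F ≃ (F →ₐ[K] S) where
  toFun o := (exists_unique_embedding_extends hS o).choose
  invFun g := pullback hS g
  left_inv o := Subtype.ext (LinearOrder.ext fun x y => by
    have h := (exists_unique_embedding_extends hS o).choose_spec.1
    let _ : LinearOrder F := o.1
    exact h.le_iff_le)
  right_inv g := ((exists_unique_embedding_extends hS (pullback hS g)).choose_spec.2 g
    fun _ _ hab => hab).symm

/-- **The orderings of a finite extension are counted by the roots in a real closed field.** -/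
theorem card_extends [FiniteDimensional K F] (hS : StrictMono (algebraMap K S))
    (pb : PowerBasis K F) :
    Nat.card (Extends K F) = (rootFinset S (minpoly K pb.gen)).card := by
  classical
  rw [Nat.card_congr ((extendsEquiv hS).trans pb.liftEquiv'),
    ← Nat.card_eq_finsetCard (rootFinset S (minpoly K pb.gen))]
  refine Nat.card_congr (Equiv.subtypeEquivRight fun y => ?_)
  simp [rootFinset, aroots_def]

end orderings

/-- The real algebraic numbers are the real closure of the rationals. -/
theorem isRealClosure_realAlgebraic : IsRealClosure ℚ (algebraicClosure ℚ ℝ) :=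
  isRealClosure_algebraicClosure ℚ (fun a b hab => by simpa using hab)

/-- **The orderings of a number field are its real places.** -/
theorem card_orderings_numberField (F : Type*) [Field F] [NumberField F] :
    Nat.card {o : LinearOrder F // @IsStrictOrderedRing F _ o.toPartialOrder} =
      NumberField.InfinitePlace.nrRealPlaces F := by
  classical
  have : IsRealClosed ℝ := isRealClosed_of_polyIVT ℝ
  rw [← NumberField.InfinitePlace.card_real_embeddings, ← Nat.card_eq_fintype_card]
  refine Nat.card_congr (((Equiv.subtypeEquivRight fun o => ?_).trans
    (extendsEquiv (K := ℚ) (S := ℝ) fun a b hab => by simpa using hab)).trans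
    { toFun := fun g => ⟨Complex.ofRealHom.comp (g : F →+* ℝ), RingHom.ext fun x =>
        Complex.conj_ofReal _⟩
      invFun := fun φ => φ.2.embedding.toRatAlgHom
      left_inv := fun g => AlgHom.ext fun x => by
        refine Complex.ofReal_injective ?_
        exact NumberField.ComplexEmbedding.IsReal.coe_embedding_apply
          (φ := Complex.ofRealHom.comp (g : F →+* ℝ))
          (RingHom.ext fun x => Complex.conj_ofReal _) x
      right_inv := fun φ => Subtype.ext (RingHom.ext fun x => φ.2.coe_embedding_apply x) })
  let _ : LinearOrder F := o
  refine ⟨fun h => ⟨h, ?_⟩, fun h => h.1⟩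
  intro a b hab
  rw [eq_ratCast, eq_ratCast]
  exact Rat.cast_lt.2 hab

end Fermat.Agent.RealClosure
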