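import Fermat.Agent.HilbertSeventeen.PolySign

/-!
# Sign variations of a list
-/

set_option autoImplicit false
set_option linter.unusedSectionVars false

noncomputable section

open Polynomial

namespace Fermat.Agent.RealClosure

variable {R : Type*} [Field R] [LinearOrder R] [IsStrictOrderedRing R]

/-- The sign changes in `l` after a last nonzero sign `s`, zeros being skipped. -/
def varFrom : SignType → List R → ℕ
  | _, [] => 0
  | s, x :: l =>
    if x = 0 then varFrom s l
    else (if s = 0 ∨ s = SignType.sign x then 0 else 1) + varFrom (SignType.sign x) l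

/-- The number of sign changes in a list, zeros being skipped. -/
def signVar (l : List R) : ℕ := varFrom 0 l

theorem varFrom_cons_zero (s : SignType) (l : List R) : varFrom s ((0 : R) :: l) = varFrom s l := by
  rw [varFrom, if_pos rfl]

theorem varFrom_cons {x : R} (hx : x ≠ 0) (s : SignType) (l : List R) :
    varFrom s (x :: l) =
      (if s = 0 ∨ s = SignType.sign x then 0 else 1) + varFrom (SignType.sign x) l := by
  rw [varFrom, if_neg hx]

theorem signVar_zero_cons (l : List R) : signVar ((0 : R) :: l) = signVar l :=
  varFrom_cons_zero 0 l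

theorem signVar_cons {x : R} (hx : x ≠ 0) (l : List R) :
    signVar (x :: l) = varFrom (SignType.sign x) l := by
  rw [signVar, varFrom_cons hx, if_pos (Or.inl rfl), zero_add]

theorem signVar_cons_cons {x y : R} (hx : x ≠ 0) (hy : y ≠ 0) (l : List R) :
    signVar (x :: y :: l) =
      (if SignType.sign x = SignType.sign y then 0 else 1) + signVar (y :: l) := by
  rw [signVar_cons hx, varFrom_cons hy, signVar_cons hy]
  simp [hx]

theorem signVar_middle {x z : R} (h : x * z < 0) (y : R) (l : List R) :
    signVar (x :: y :: z :: l) = 1 + signVar (z :: l) := by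
  have hx : x ≠ 0 := fun e => by simp [e] at h
  have hz : z ≠ 0 := fun e => by simp [e] at h
  rcases eq_or_ne y 0 with rfl | hy
  · rw [signVar_cons hx, varFrom_cons_zero, varFrom_cons hz, signVar_cons hz]
    rcases mul_neg_iff.1 h with ⟨h1, h2⟩ | ⟨h1, h2⟩ <;> simp [h1, h2]
  · rw [signVar_cons_cons hx hy, signVar_cons_cons hy hz]
    rcases mul_neg_iff.1 h with ⟨h1, h2⟩ | ⟨h1, h2⟩ <;> rcases hy.lt_or_gt with h3 | h3 <;>
      simp [h1, h2, h3]

theorem varFrom_map_eq {S : Type*} [Field S] [LinearOrder S] [IsStrictOrderedRing S] {ι : Type*}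
    {f : ι → R} {g : ι → S} : ∀ (l : List ι) (s : SignType),
      (∀ i ∈ l, SignType.sign (f i) = SignType.sign (g i)) →
        varFrom s (l.map f) = varFrom s (l.map g)
  | [], _, _ => rfl
  | i :: l, s, h => by
    have hi := h i List.mem_cons_self
    have ih := fun s => varFrom_map_eq l s fun j hj => h j (List.mem_cons_of_mem i hj)
    rw [List.map_cons, List.map_cons]
    rcases eq_or_ne (f i) 0 with e | e
    · have e' : g i = 0 := sign_eq_zero_iff.1 (by rw [← hi, e, sign_zero])
      rw [e, e', varFrom_cons_zero, varFrom_cons_zero, ih]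
    · have e' : g i ≠ 0 := fun e' => e (sign_eq_zero_iff.1 (by rw [hi, e', sign_zero]))
      rw [varFrom_cons e, varFrom_cons e', ← hi, ih]

theorem signVar_map_eq {S : Type*} [Field S] [LinearOrder S] [IsStrictOrderedRing S] {ι : Type*}
    {f : ι → R} {g : ι → S} (l : List ι)
    (h : ∀ i ∈ l, SignType.sign (f i) = SignType.sign (g i)) :
    signVar (l.map f) = signVar (l.map g) :=
  varFrom_map_eq l 0 h

theorem varFrom_mul {c : R} (hc : c ≠ 0) : ∀ (l : List R) (s : SignType),
    varFrom (SignType.sign c * s) (l.map (c * ·)) = varFrom s l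
  | [], _ => rfl
  | x :: l, s => by
    rw [List.map_cons]
    rcases eq_or_ne x 0 with rfl | hx
    · rw [mul_zero, varFrom_cons_zero, varFrom_cons_zero, varFrom_mul hc l]
    · rw [varFrom_cons (mul_ne_zero hc hx), varFrom_cons hx, sign_mul, varFrom_mul hc l]
      rcases hc.lt_or_gt with h | h <;> simp [h]

theorem signVar_mul {c : R} (hc : c ≠ 0) (l : List R) : signVar (l.map (c * ·)) = signVar l := by
  have := varFrom_mul hc l 0
  rwa [mul_zero] at this

end Fermat.Agent.RealClosure
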