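import Fermat.Agent.RealClosure.Existence
import Fermat.Agent.HilbertSeventeen.ArtinLang

/-!
# Uniqueness of real closures

Sign determination gives, for finitely many algebraic elements, images with all the same signs.
So the number of roots of a polynomial does not depend on the real closed field, and sending the
`k`-th root to the `k`-th root is the only homomorphism over the ground field.
-/

set_option autoImplicit false
set_option linter.unusedSectionVars false

noncomputable section

open Polynomial

namespace Fermat.Agent.RealClosure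

open Fermat.Agent.HilbertSeventeen

/-- An order embedding of fields preserves signs. -/
theorem sign_map_of_strictMono {K R : Type*} [Field K] [LinearOrder K] [IsStrictOrderedRing K]
    [Field R] [LinearOrder R] [IsStrictOrderedRing R] {f : K →+* R} (hf : StrictMono f) (c : K) :
    SignType.sign (f c) = SignType.sign c := by
  rcases lt_trichotomy c 0 with h | rfl | h
  · rw [sign_neg h, sign_neg (by simpa using hf h)]
  · simp
  · rw [sign_pos h, sign_pos (by simpa using hf h)]

variable {K : Type*} [Field K]

/-- The roots in `R` of a polynomial over `K`. -/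
def rootFinset (R : Type*) [Field R] [Algebra K R] (p : K[X]) : Finset R := by
  classical exact (p.map (algebraMap K R)).roots.toFinset

theorem mem_rootFinset {R : Type*} [Field R] [Algebra K R] {p : K[X]} (hp : p ≠ 0) {x : R} :
    x ∈ rootFinset R p ↔ aeval x p = 0 := by
  classical
  rw [rootFinset, Multiset.mem_toFinset, mem_roots (map_ne_zero hp), IsRoot, eval_map_algebraMap]

theorem ne_zero_of_mem_rootFinset {R : Type*} [Field R] [Algebra K R] {p : K[X]} {x : R}
    (h : x ∈ rootFinset R p) : p ≠ 0 := fun e => by simp [rootFinset, e] at h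

theorem isAlgebraic_of_mem_rootFinset {R : Type*} [Field R] [Algebra K R] {p : K[X]} {x : R}
    (h : x ∈ rootFinset R p) : IsAlgebraic K x :=
  ⟨p, ne_zero_of_mem_rootFinset h, (mem_rootFinset (ne_zero_of_mem_rootFinset h)).1 h⟩

variable [LinearOrder K] [IsStrictOrderedRing K]
variable {R : Type*} [Field R] [LinearOrder R] [IsStrictOrderedRing R] [PolyIVT R] [Algebra K R]
variable {S : Type*} [Field S] [LinearOrder S] [IsStrictOrderedRing S] [PolyIVT S] [Algebra K S]

/-- Finitely many algebraic elements have images with all the same signs. -/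
theorem exists_sign_tuple (hR : StrictMono (algebraMap K R)) (hS : StrictMono (algebraMap K S))
    {n : ℕ} (x : Fin n → R) (hx : ∀ i, IsAlgebraic K (x i)) :
    ∃ y : Fin n → S, ∀ p : MvPolynomial (Fin n) K,
      SignType.sign (p.eval₂ (algebraMap K R) x) =
        SignType.sign (p.eval₂ (algebraMap K S) y) := by
  classical
  by_contra! h
  choose p hp using h
  set U := Fintype.piFinset fun i => rootFinset S (minpoly K (x i)) with hU
  obtain ⟨y, hy⟩ := exists_point (algebraMap K R) (algebraMap K S)
    (fun b => by rw [sign_map_of_strictMono hR, sign_map_of_strictMono hS]) n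
    (U.image p ∪ Finset.univ.image fun i =>
      aeval (MvPolynomial.X i : MvPolynomial (Fin n) K) (minpoly K (x i))) x
  have hyU : y ∈ U := Fintype.mem_piFinset.2 fun i => by
    have e := hy _ (Finset.mem_union_right _ (Finset.mem_image_of_mem _ (Finset.mem_univ i)))
    rw [← MvPolynomial.aeval_def, ← MvPolynomial.aeval_def,
      ← aeval_algHom_apply (MvPolynomial.aeval x), ← aeval_algHom_apply (MvPolynomial.aeval y),
      MvPolynomial.aeval_X, MvPolynomial.aeval_X, minpoly.aeval,
      sign_zero, eq_comm, sign_eq_zero_iff] at e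
    exact (mem_rootFinset (minpoly.ne_zero (hx i).isIntegral)).2 e
  exact hp y (hy _ (Finset.mem_union_left _ (Finset.mem_image_of_mem p hyU)))

/-- A map of finitely many algebraic elements that keeps roots, order, sums and products. -/
theorem exists_sign_map (hR : StrictMono (algebraMap K R)) (hS : StrictMono (algebraMap K S))
    (s : Finset R) (hs : ∀ x ∈ s, IsAlgebraic K x) :
    ∃ g : R → S, StrictMonoOn g (s : Set R) ∧
      (∀ (q : K[X]), ∀ x ∈ s, aeval x q = 0 → aeval (g x) q = 0) ∧
      (∀ a ∈ s, ∀ b ∈ s, ∀ c ∈ s, a + b = c → g a + g b = g c) ∧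
      (∀ a ∈ s, ∀ b ∈ s, ∀ c ∈ s, a * b = c → g a * g b = g c) ∧
      (∀ k : K, algebraMap K R k ∈ s → g (algebraMap K R k) = algebraMap K S k) := by
  classical
  set e := s.equivFin with he
  obtain ⟨y, hy⟩ := exists_sign_tuple hR hS (fun i => ((e.symm i : s) : R))
    (fun i => hs _ (e.symm i).2)
  set g : R → S := fun x => if h : x ∈ s then y (e ⟨x, h⟩) else 0 with hg
  let v : s → MvPolynomial (Fin s.card) K := fun x => MvPolynomial.X (e x)
  have hvR : ∀ x : s, (v x).eval₂ (algebraMap K R) (fun i => ((e.symm i : s) : R)) = x := by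
    intro x; simp [v]
  have hvS : ∀ x : s, (v x).eval₂ (algebraMap K S) y = g x := by
    intro x; simp [v, g]
  have key : ∀ p : MvPolynomial (Fin s.card) K,
      p.eval₂ (algebraMap K R) (fun i => ((e.symm i : s) : R)) = 0 →
        p.eval₂ (algebraMap K S) y = 0 := fun p hp => by
    have := hy p
    rw [hp, sign_zero, eq_comm, sign_eq_zero_iff] at this
    exact this
  refine ⟨g, fun a ha b hb hab => ?_, fun q x hx hq => ?_, fun a ha b hb c hc h => ?_,
    fun a ha b hb c hc h => ?_, fun k hk => ?_⟩
  · have := hy (v ⟨b, hb⟩ - v ⟨a, ha⟩)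
    rw [MvPolynomial.eval₂_sub, MvPolynomial.eval₂_sub, hvR, hvR, hvS, hvS,
      sign_pos (sub_pos.2 hab), eq_comm, sign_eq_one_iff, sub_pos] at this
    exact this
  · have := key (aeval (v ⟨x, hx⟩) q) (by
      rw [← MvPolynomial.aeval_def, ← aeval_algHom_apply, MvPolynomial.aeval_def, hvR]
      exact hq)
    rw [← MvPolynomial.aeval_def, ← aeval_algHom_apply, MvPolynomial.aeval_def, hvS] at this
    exact this
  · have := key (v ⟨a, ha⟩ + v ⟨b, hb⟩ - v ⟨c, hc⟩) (by
      rw [MvPolynomial.eval₂_sub, MvPolynomial.eval₂_add, hvR, hvR, hvR]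
      exact sub_eq_zero.2 h)
    rw [MvPolynomial.eval₂_sub, MvPolynomial.eval₂_add, hvS, hvS, hvS] at this
    exact sub_eq_zero.1 this
  · have := key (v ⟨a, ha⟩ * v ⟨b, hb⟩ - v ⟨c, hc⟩) (by
      rw [MvPolynomial.eval₂_sub, MvPolynomial.eval₂_mul, hvR, hvR, hvR]
      exact sub_eq_zero.2 h)
    rw [MvPolynomial.eval₂_sub, MvPolynomial.eval₂_mul, hvS, hvS, hvS] at this
    exact sub_eq_zero.1 this
  · have := key (v ⟨_, hk⟩ - MvPolynomial.C k) (by
      rw [MvPolynomial.eval₂_sub, MvPolynomial.eval₂_C, hvR]
      exact sub_self _)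
    rw [MvPolynomial.eval₂_sub, MvPolynomial.eval₂_C, hvS] at this
    exact sub_eq_zero.1 this

theorem card_rootFinset_le (hR : StrictMono (algebraMap K R)) (hS : StrictMono (algebraMap K S))
    (p : K[X]) : (rootFinset R p).card ≤ (rootFinset S p).card := by
  obtain ⟨g, hmono, hroot, -⟩ := exists_sign_map hR hS (rootFinset R p)
    fun x hx => isAlgebraic_of_mem_rootFinset hx
  exact Finset.card_le_card_of_injOn g (fun x hx =>
    (mem_rootFinset (ne_zero_of_mem_rootFinset hx)).2
      (hroot p x hx ((mem_rootFinset (ne_zero_of_mem_rootFinset hx)).1 hx))) hmono.injOn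

/-- **The number of roots does not depend on the real closed field.** -/
theorem card_rootFinset_eq (hR : StrictMono (algebraMap K R)) (hS : StrictMono (algebraMap K S))
    (p : K[X]) : (rootFinset R p).card = (rootFinset S p).card :=
  le_antisymm (card_rootFinset_le hR hS p) (card_rootFinset_le hS hR p)

/-- Strictly increasing maps between finite sets of the same size agree. -/
theorem eq_of_strictMonoOn {A B : Type*} [LinearOrder A] [LinearOrder B] {s : Finset A}
    {t : Finset B} (hst : s.card = t.card) {g g' : A → B} (hg : StrictMonoOn g (s : Set A))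
    (hg' : StrictMonoOn g' (s : Set A)) (hgt : ∀ x ∈ s, g x ∈ t) (hgt' : ∀ x ∈ s, g' x ∈ t)
    {x : A} (hx : x ∈ s) : g x = g' x := by
  obtain ⟨i, hi⟩ : ∃ i, s.orderEmbOfFin hst i = x := by
    rw [← Set.mem_range, Finset.range_orderEmbOfFin]
    exact hx
  have hmem : ∀ i, s.orderEmbOfFin hst i ∈ s := fun i => Finset.orderEmbOfFin_mem s hst i
  have h1 := t.orderEmbOfFin_unique rfl (f := g ∘ s.orderEmbOfFin hst) (fun i => hgt _ (hmem i))
    fun i j hij => hg (hmem i) (hmem j) ((s.orderEmbOfFin hst).strictMono hij)
  have h2 := t.orderEmbOfFin_unique rfl (f := g' ∘ s.orderEmbOfFin hst) (fun i => hgt' _ (hmem i))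
    fun i j hij => hg' (hmem i) (hmem j) ((s.orderEmbOfFin hst).strictMono hij)
  rw [← hi]
  exact congr_fun (h1.trans h2.symm) i

variable (hR : StrictMono (algebraMap K R)) (hS : StrictMono (algebraMap K S))

/-- The `k`-th root goes to the `k`-th root. -/
def transfer (θ : R) : S :=
  (exists_sign_map hR hS (rootFinset R (minpoly K θ))
    fun _ hx => isAlgebraic_of_mem_rootFinset hx).choose θ

/-- The transfer is the only monotone map of the conjugates into the roots. -/
theorem eq_transfer {θ : R} (hθ : IsAlgebraic K θ) {g : R → S}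
    (hmono : StrictMonoOn g (rootFinset R (minpoly K θ) : Set R))
    (hroot : ∀ x ∈ rootFinset R (minpoly K θ), aeval (g x) (minpoly K θ) = 0) :
    g θ = transfer hR hS θ := by
  have hne := minpoly.ne_zero hθ.isIntegral
  obtain ⟨h1, h2, -⟩ := (exists_sign_map hR hS (rootFinset R (minpoly K θ))
    fun _ hx => isAlgebraic_of_mem_rootFinset hx).choose_spec
  exact eq_of_strictMonoOn (t := rootFinset S (minpoly K θ)) (card_rootFinset_eq hR hS _) hmono h1
    (fun x hx => (mem_rootFinset hne).2 (hroot x hx))
    (fun x hx => (mem_rootFinset hne).2 (h2 _ x hx ((mem_rootFinset hne).1 hx)))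
    ((mem_rootFinset hne).2 (minpoly.aeval K θ))

variable [Algebra.IsAlgebraic K R]

theorem exists_transfer_map (l : List R) :
    ∃ g : R → S, (∀ x ∈ l, g x = transfer hR hS x) ∧
      (∀ a ∈ l, ∀ b ∈ l, ∀ c ∈ l, a + b = c → g a + g b = g c) ∧
      (∀ a ∈ l, ∀ b ∈ l, ∀ c ∈ l, a * b = c → g a * g b = g c) ∧
      (∀ k : K, algebraMap K R k ∈ l → g (algebraMap K R k) = algebraMap K S k) := by
  classical
  set s := l.toFinset.biUnion fun x => rootFinset R (minpoly K x) with hs
  have hsub : ∀ x ∈ l, rootFinset R (minpoly K x) ⊆ s := fun x hx =>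
    Finset.subset_biUnion_of_mem (fun x => rootFinset R (minpoly K x)) (List.mem_toFinset.2 hx)
  have hmem : ∀ x ∈ l, x ∈ s := fun x hx => hsub x hx
    ((mem_rootFinset (minpoly.ne_zero (Algebra.IsIntegral.isIntegral x))).2 (minpoly.aeval K x))
  obtain ⟨g, hmono, hroot, hadd, hmul, halg⟩ := exists_sign_map hR hS s
    fun x _ => Algebra.IsAlgebraic.isAlgebraic x
  refine ⟨g, fun x hx => eq_transfer hR hS (Algebra.IsAlgebraic.isAlgebraic x)
    (hmono.mono (Finset.coe_subset.2 (hsub x hx))) fun z hz => hroot _ z (hsub x hx hz)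
      ((mem_rootFinset (ne_zero_of_mem_rootFinset hz)).1 hz),
    fun a ha b hb c hc => hadd a (hmem a ha) b (hmem b hb) c (hmem c hc),
    fun a ha b hb c hc => hmul a (hmem a ha) b (hmem b hb) c (hmem c hc),
    fun k hk => halg k (hmem _ hk)⟩

theorem transfer_algebraMap (k : K) :
    transfer hR hS (algebraMap K R k) = algebraMap K S k := by
  obtain ⟨g, h, -, -, hk⟩ := exists_transfer_map hR hS [algebraMap K R k]
  rw [← h _ (by simp), hk k (by simp)]

theorem transfer_add (a b : R) :
    transfer hR hS (a + b) = transfer hR hS a + transfer hR hS b := by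
  obtain ⟨g, h, hadd, -⟩ := exists_transfer_map hR hS [a, b, a + b]
  rw [← h a (by simp), ← h b (by simp), ← h (a + b) (by simp),
    hadd a (by simp) b (by simp) _ (by simp) rfl]

theorem transfer_mul (a b : R) :
    transfer hR hS (a * b) = transfer hR hS a * transfer hR hS b := by
  obtain ⟨g, h, -, hmul, -⟩ := exists_transfer_map hR hS [a, b, a * b]
  rw [← h a (by simp), ← h b (by simp), ← h (a * b) (by simp),
    hmul a (by simp) b (by simp) _ (by simp) rfl]

/-- The transfer as a homomorphism over the ground field. -/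
def transferHom : R →ₐ[K] S where
  toFun := transfer hR hS
  map_one' := by rw [← map_one (algebraMap K R), transfer_algebraMap, map_one]
  map_mul' := transfer_mul hR hS
  map_zero' := by rw [← map_zero (algebraMap K R), transfer_algebraMap, map_zero]
  map_add' := transfer_add hR hS
  commutes' := transfer_algebraMap hR hS

/-- Every homomorphism over the ground field is the transfer. -/
theorem algHom_eq_transferHom (f : R →ₐ[K] S) : f = transferHom hR hS :=
  AlgHom.ext fun θ => eq_transfer hR hS (Algebra.IsAlgebraic.isAlgebraic θ)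
    (g := f) ((strictMono_ringHom (f : R →+* S)).strictMonoOn _) fun x hx => by
      rw [aeval_algHom_apply, (mem_rootFinset (ne_zero_of_mem_rootFinset hx)).1 hx, map_zero]

end Fermat.Agent.RealClosure
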