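import Fermat.Agent.RealClosure.SturmSequence
import Fermat.Agent.RealClosure.Uniqueness

/-!
# Sturm's theorem

Divided by the gcd of `p` and its derivative, the signed remainder sequence of this pair is a Sturm
chain for the distinct roots of `p`. The number of all roots is read off from the leading
coefficients, so it can be computed in any ordered subfield.
-/

set_option autoImplicit false
set_option linter.unusedSectionVars false

noncomputable section

open Polynomial

namespace Fermat.Agent.RealClosure

open Fermat.Agent.HilbertSeventeen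

section remainder

variable {F : Type*} [Field F]

open Classical in
/-- The signed remainder sequence. -/
def negRemSeq (p q : F[X]) : List F[X] :=
  p :: if _hq : q = 0 then [] else negRemSeq q (-(p % q))
  termination_by q.degree
  decreasing_by rw [degree_neg]; exact degree_mod_lt p (by assumption)

theorem negRemSeq_zero (p : F[X]) : negRemSeq p 0 = [p] := by
  rw [negRemSeq]; simp

theorem negRemSeq_of_ne (p : F[X]) {q : F[X]} (hq : q ≠ 0) :
    negRemSeq p q = p :: negRemSeq q (-(p % q)) := by
  rw [negRemSeq, dif_neg hq]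

theorem negRemSeq_eq_cons (p q : F[X]) : ∃ l, negRemSeq p q = p :: l := by
  rw [negRemSeq]; exact ⟨_, rfl⟩

theorem mul_mod_mul_eq {g : F[X]} (hg : g ≠ 0) (p : F[X]) {q : F[X]} (hq : q ≠ 0) :
    g * p % (g * q) = g * (p % q) := by
  have hgq := mul_ne_zero hg hq
  have hdeg : (g * (p % q)).degree < (g * q).degree := by
    rw [degree_mul, degree_mul]
    exact WithBot.add_lt_add_left (mt degree_eq_bot.1 hg) (degree_mod_lt p hq)
  have hlc : (g * q).leadingCoeff ≠ 0 := leadingCoeff_ne_zero.2 hgq
  rw [mod_def]
  refine (div_modByMonic_unique (p / q * C (g * q).leadingCoeff) _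
    (monic_mul_leadingCoeff_inv hgq) ⟨?_, ?_⟩).2
  · calc g * (p % q) + g * q * C (g * q).leadingCoeff⁻¹ * (p / q * C (g * q).leadingCoeff)
        = g * (p % q) + g * q * (p / q) *
            (C (g * q).leadingCoeff⁻¹ * C (g * q).leadingCoeff) := by ring
      _ = g * p := by
          rw [← C_mul, inv_mul_cancel₀ hlc, C_1]
          linear_combination g * EuclideanDomain.mod_add_div p q
  · rwa [degree_mul_leadingCoeff_inv _ hgq]

theorem negRemSeq_mul {g : F[X]} (hg : g ≠ 0) (p q : F[X]) :
    negRemSeq (g * p) (g * q) = (negRemSeq p q).map (g * ·) := by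
  by_cases hq : q = 0
  · subst hq; rw [mul_zero, negRemSeq_zero, negRemSeq_zero]; rfl
  · rw [negRemSeq_of_ne _ (mul_ne_zero hg hq), negRemSeq_of_ne _ hq, List.map_cons,
      mul_mod_mul_eq hg p hq, ← mul_neg, negRemSeq_mul hg q]
  termination_by q.degree
  decreasing_by rw [degree_neg]; exact degree_mod_lt p (by assumption)

theorem ne_zero_of_mem_negRemSeq {p : F[X]} (hp : p ≠ 0) (q : F[X]) :
    ∀ g ∈ negRemSeq p q, g ≠ 0 := by
  by_cases hq : q = 0
  · subst hq; rw [negRemSeq_zero]; intro g hg; rw [List.mem_singleton.1 hg]; exact hp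
  · rw [negRemSeq_of_ne p hq]
    intro g hg
    rcases List.mem_cons.1 hg with rfl | hg
    · exact hp
    · exact ne_zero_of_mem_negRemSeq hq _ g hg
  termination_by q.degree
  decreasing_by rw [degree_neg]; exact degree_mod_lt p (by assumption)

theorem map_negRemSeq {E : Type*} [Field E] (f : F →+* E) (p q : F[X]) :
    negRemSeq (p.map f) (q.map f) = (negRemSeq p q).map (Polynomial.map f) := by
  by_cases hq : q = 0
  · subst hq; rw [Polynomial.map_zero, negRemSeq_zero, negRemSeq_zero]; rfl
  · rw [negRemSeq_of_ne _ (Polynomial.map_ne_zero hq), negRemSeq_of_ne _ hq, List.map_cons,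
      ← Polynomial.map_mod, ← Polynomial.map_neg, map_negRemSeq f q]
  termination_by q.degree
  decreasing_by rw [degree_neg]; exact degree_mod_lt p (by assumption)

/-- The Sturm sequence of a polynomial. -/
def sturmSeq (p : F[X]) : List F[X] :=
  negRemSeq p (derivative p)

theorem map_sturmSeq {E : Type*} [Field E] (f : F →+* E) (p : F[X]) :
    sturmSeq (p.map f) = (sturmSeq p).map (Polynomial.map f) := by
  rw [sturmSeq, sturmSeq, derivative_map, map_negRemSeq]

end remainder

section ordered

variable {F : Type*} [Field F] [LinearOrder F] [IsStrictOrderedRing F]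

theorem eval_ne_zero_of_isUnit {p : F[X]} (hp : IsUnit p) (x : F) : p.eval x ≠ 0 := by
  obtain ⟨c, hc, rfl⟩ := Polynomial.isUnit_iff.1 hp
  rw [eval_C]
  exact hc.ne_zero

theorem eval_ne_zero_of_isCoprime {p q : F[X]} (h : IsCoprime p q) {x : F} (hq : q.eval x = 0) :
    p.eval x ≠ 0 := fun hp => by
  obtain ⟨u, v, e⟩ := h
  simpa [hp, hq] using congrArg (eval x) e

theorem isTail_negRemSeq (p q : F[X]) (h : IsCoprime p q) : IsTail (negRemSeq p q) := by
  by_cases hq : q = 0
  · subst hq
    rw [negRemSeq_zero]
    exact IsTail.single p (eval_ne_zero_of_isUnit (isCoprime_zero_right.1 h))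
  · have hcop : IsCoprime q (-(p % q)) := by
      refine (IsCoprime.of_add_mul_left_left (z := p / q) ?_).symm.neg_right
      rwa [EuclideanDomain.mod_add_div]
    have ih := isTail_negRemSeq q (-(p % q)) hcop
    obtain ⟨l, hl⟩ := negRemSeq_eq_cons q (-(p % q))
    rw [negRemSeq_of_ne p hq, hl]
    rw [hl] at ih
    refine IsTail.cons p q l ih fun x hx => ?_
    have hpx := eval_ne_zero_of_isCoprime h hx
    have hr : (-(p % q)).eval x = -p.eval x := by
      rw [eval_neg]
      congr 1
      conv_rhs => rw [← EuclideanDomain.mod_add_div p q]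
      simp [hx]
    have hr0 : -(p % q) ≠ 0 := fun e => by
      rw [e, eval_zero, eq_comm, neg_eq_zero] at hr
      exact hpx hr
    obtain ⟨l', hl'⟩ := negRemSeq_eq_cons (-(p % q)) (-(q % -(p % q)))
    rw [negRemSeq_of_ne q hr0, hl', List.cons.injEq] at hl
    rw [← hl.2, List.headD_cons, hr, mul_neg, neg_lt_zero]
    exact mul_self_pos.2 hpx
  termination_by q.degree
  decreasing_by rw [degree_neg]; exact degree_mod_lt p (by assumption)

theorem exists_reduced {p : F[X]} (hp : p ≠ 0) :
    ∃ g h k : F[X], g ≠ 0 ∧ p = g * h ∧ derivative p = g * k ∧ IsCoprime h k := by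
  classical
  obtain ⟨h, hh⟩ := EuclideanDomain.gcd_dvd_left p (derivative p)
  obtain ⟨k, hk⟩ := EuclideanDomain.gcd_dvd_right p (derivative p)
  have hg : EuclideanDomain.gcd p (derivative p) ≠ 0 := fun e => hp (by rw [hh, e, zero_mul])
  refine ⟨_, h, k, hg, hh, hk, EuclideanDomain.gcdA p (derivative p),
    EuclideanDomain.gcdB p (derivative p), mul_left_cancel₀ hg ?_⟩
  linear_combination -(EuclideanDomain.gcdA p (derivative p)) * hh -
    EuclideanDomain.gcdB p (derivative p) * hk - EuclideanDomain.gcd_eq_gcd_ab p (derivative p)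

/-- At a root of `p` the reduced pair is a root and a value of the sign of the derivative. -/
theorem reduced_at_root {p g h k : F[X]} (hp : p ≠ 0) (e1 : p = g * h)
    (e2 : derivative p = g * k) (hcop : IsCoprime h k) {c : F} (hc : p.eval c = 0) :
    h.eval c = 0 ∧ 0 < h.derivative.eval c * k.eval c := by
  subst e1
  obtain ⟨G, hG, hndvd⟩ :=
    exists_eq_pow_rootMultiplicity_mul_and_not_dvd g (left_ne_zero_of_mul hp) c
  set j := rootMultiplicity c g
  have hGc : G.eval c ≠ 0 := fun e => hndvd (dvd_iff_isRoot.2 e)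
  have key : G * (k - derivative h) * (X - C c) =
      (C (j : F) * G + (X - C c) * derivative G) * h := by
    refine mul_left_cancel₀ (pow_ne_zero j (X_sub_C_ne_zero c)) ?_
    have e : g * (k - derivative h) = derivative g * h := by
      rw [derivative_mul] at e2
      linear_combination -e2
    have hd : derivative g * (X - C c) =
        (X - C c) ^ j * (C (j : F) * G + (X - C c) * derivative G) := by
      rw [hG, derivative_mul, derivative_X_sub_C_pow]
      rcases Nat.eq_zero_or_pos j with h0 | h0
      · rw [h0]; simp; ring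
      · obtain ⟨i, hi⟩ : ∃ i, j = i + 1 := ⟨j - 1, by omega⟩
        rw [hi, Nat.add_sub_cancel, pow_succ]
        ring
    linear_combination (X - C c) * e + h * hd - (k - derivative h) * (X - C c) * hG
  have hh : h.eval c = 0 := by
    by_contra hne
    have e := congrArg (eval c) key
    simp [hGc, hne] at e
    rw [eval_mul] at hc
    rcases mul_eq_zero.1 hc with hc | hc
    · rw [hG] at hc
      simp [e, hGc] at hc
    · exact hne hc
  obtain ⟨v, hv⟩ : (X - C c) ∣ h := dvd_iff_isRoot.2 hh
  have hvc : h.derivative.eval c = v.eval c := by rw [hv]; simp [derivative_mul]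
  have key2 : G * (k - derivative h) = (C (j : F) * G + (X - C c) * derivative G) * v :=
    mul_right_cancel₀ (X_sub_C_ne_zero c) (by
      linear_combination key + (C (j : F) * G + (X - C c) * derivative G) * hv)
  have e := congrArg (eval c) key2
  simp only [eval_mul, eval_sub, eval_add, eval_C, eval_X, sub_self, zero_mul, add_zero, hvc] at e
  have hk : k.eval c = ((j : F) + 1) * v.eval c := by
    apply mul_left_cancel₀ hGc
    linear_combination e
  have hv0 : v.eval c ≠ 0 := fun e0 =>
    eval_ne_zero_of_isCoprime hcop.symm hh (by rw [hk, e0, mul_zero])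
  refine ⟨hh, ?_⟩
  rw [hvc, hk, show v.eval c * (((j : F) + 1) * v.eval c) =
    ((j : F) + 1) * (v.eval c * v.eval c) by ring]
  exact mul_pos (by positivity) (mul_self_pos.2 hv0)

variable [PolyIVT F]

/-- **Sturm's theorem**: between two points that are not multiple roots the variations of the
Sturm sequence drop by the number of distinct roots. -/
theorem sturm {p : F[X]} (hp : p ≠ 0) {a b : F} (hab : a ≤ b)
    (ha : p.eval a ≠ 0 ∨ p.derivative.eval a ≠ 0) (hb : p.eval b ≠ 0 ∨ p.derivative.eval b ≠ 0) :
    varAt (sturmSeq p) a = varAt (sturmSeq p) b + (rootsIn p a b).card := by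
  obtain ⟨g, h, k, hg, e1, e2, hcop⟩ := exists_reduced hp
  have hh : h ≠ 0 := fun e => hp (by rw [e1, e, mul_zero])
  have hne : ∀ x, (p.eval x ≠ 0 ∨ p.derivative.eval x ≠ 0) → g.eval x ≠ 0 := fun x hx e => by
    rw [e2, e1, eval_mul, eval_mul, e, zero_mul, zero_mul] at hx
    simp at hx
  have hvar : ∀ x, g.eval x ≠ 0 → varAt (sturmSeq p) x = varAt (negRemSeq h k) x := fun x hx => by
    rw [sturmSeq, e2, e1, negRemSeq_mul hg, varAt, varAt, ← signVar_mul hx
      ((negRemSeq h k).map (eval x)), List.map_map, List.map_map]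
    exact congrArg signVar (List.map_congr_left fun f _ => eval_mul)
  have hroots : rootsIn p a b = rootsIn h a b := by
    ext x
    rw [mem_rootsIn hp, mem_rootsIn hh]
    refine ⟨fun ⟨e, h'⟩ => ⟨(reduced_at_root hp e1 e2 hcop e).1, h'⟩, fun ⟨e, h'⟩ => ⟨?_, h'⟩⟩
    rw [e1, eval_mul, e, mul_zero]
  rw [hvar a (hne a ha), hvar b (hne b hb), hroots]
  by_cases hk : k = 0
  · subst hk
    rw [negRemSeq_zero]
    have hu := eval_ne_zero_of_isUnit (isCoprime_zero_right.1 hcop)
    rw [Finset.card_eq_zero.2 (Finset.eq_empty_of_forall_notMem fun x hx =>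
      hu x ((mem_rootsIn hh).1 hx).1)]
    simp [varAt, signVar_cons (hu _), varFrom]
  · have ht := isTail_negRemSeq h k hcop
    obtain ⟨l, hl⟩ := negRemSeq_eq_cons k (-(h % k))
    rw [negRemSeq_of_ne h hk, hl] at ht ⊢
    exact IsSturm.varAt_sub ⟨ht, fun c hc =>
      (reduced_at_root hp e1 e2 hcop (by rw [e1, eval_mul, hc, mul_zero])).2⟩ hab

end ordered

section count

/-- The variations at `+∞`. -/
def varPosInf {F : Type*} [Field F] [LinearOrder F] [IsStrictOrderedRing F] (l : List F[X]) : ℕ :=
  signVar (l.map leadingCoeff)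

/-- The variations at `-∞`. -/
def varNegInf {F : Type*} [Field F] [LinearOrder F] [IsStrictOrderedRing F] (l : List F[X]) : ℕ :=
  signVar (l.map fun g => (-1) ^ g.natDegree * g.leadingCoeff)

theorem exists_varAt_ends {F : Type*} [Field F] [LinearOrder F] [IsStrictOrderedRing F]
    [PolyIVT F] : ∀ l : List F[X], ∃ B : F, ∀ g ∈ l, ∀ x, B < x →
      SignType.sign (g.eval x) = SignType.sign g.leadingCoeff ∧
      SignType.sign (g.eval (-x)) = SignType.sign ((-1) ^ g.natDegree * g.leadingCoeff)
  | [] => ⟨0, fun g hg => absurd hg List.not_mem_nil⟩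
  | a :: l => by
    obtain ⟨B, hB⟩ := exists_varAt_ends l
    obtain ⟨C₁, h1⟩ := exists_sign_atTop a
    obtain ⟨C₂, h2⟩ := exists_sign_atBot a
    refine ⟨max B (max C₁ (-C₂)), fun g hg x hx => ?_⟩
    simp only [max_lt_iff] at hx
    rcases List.mem_cons.1 hg with rfl | hg
    · refine ⟨h1 x hx.2.1, ?_⟩
      rw [h2 (-x) (neg_lt.1 hx.2.2), sign_mul, sign_pow]
      simp
    · exact hB g hg x hx.1

/-- **The number of distinct roots in a real closed field** is read off in any ordered subfield. -/
theorem card_rootFinset_eq_var {K : Type*} [Field K] [LinearOrder K] [IsStrictOrderedRing K]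
    {R : Type*} [Field R] [LinearOrder R] [IsStrictOrderedRing R] [PolyIVT R] [Algebra K R]
    (hR : StrictMono (algebraMap K R)) {p : K[X]} (hp : p ≠ 0) :
    varNegInf (sturmSeq p) = varPosInf (sturmSeq p) + (rootFinset R p).card := by
  classical
  set q := p.map (algebraMap K R) with hq
  have hq0 : q ≠ 0 := Polynomial.map_ne_zero hp
  obtain ⟨B, hB⟩ := exists_varAt_ends (sturmSeq q)
  obtain ⟨b, hb⟩ := exists_gt (max B 0)
  rw [max_lt_iff] at hb
  have hmem : q ∈ sturmSeq q := by
    obtain ⟨l, hl⟩ := negRemSeq_eq_cons q (derivative q)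
    rw [sturmSeq, hl]
    exact List.mem_cons_self
  have hlead : q.leadingCoeff ≠ 0 := leadingCoeff_ne_zero.2 hq0
  have hend : ∀ x, B < x → q.eval x ≠ 0 ∧ q.eval (-x) ≠ 0 := fun x hx => by
    obtain ⟨e1, e2⟩ := hB q hmem x hx
    constructor <;> intro e
    · exact hlead (sign_eq_zero_iff.1 (by rw [← e1, e, sign_zero]))
    · refine hlead ?_
      rw [e, sign_zero, eq_comm, sign_eq_zero_iff, mul_eq_zero] at e2
      exact e2.resolve_left (pow_ne_zero _ (neg_ne_zero.2 one_ne_zero))
  have h := sturm hq0 (show -b ≤ b by linarith) (Or.inl (hend b hb.1).2) (Or.inl (hend b hb.1).1)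
  have e1 : varAt (sturmSeq q) (-b) = varNegInf (sturmSeq p) := by
    rw [varAt, varNegInf, hq, map_sturmSeq, List.map_map]
    refine signVar_map_eq _ fun g hg => ?_
    rw [Function.comp_apply,
      (hB _ (by rw [hq, map_sturmSeq]; exact List.mem_map_of_mem hg) b hb.1).2,
      natDegree_map, leadingCoeff_map, show ((-1 : R) ^ g.natDegree * algebraMap K R g.leadingCoeff)
        = algebraMap K R ((-1) ^ g.natDegree * g.leadingCoeff) by simp,
      sign_map_of_strictMono hR]
  have e2 : varAt (sturmSeq q) b = varPosInf (sturmSeq p) := by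
    rw [varAt, varPosInf, hq, map_sturmSeq, List.map_map]
    refine signVar_map_eq _ fun g hg => ?_
    rw [Function.comp_apply,
      (hB _ (by rw [hq, map_sturmSeq]; exact List.mem_map_of_mem hg) b hb.1).1,
      leadingCoeff_map, sign_map_of_strictMono hR]
  rw [e1, e2] at h
  have hall : ∀ x ∈ q.roots.toFinset, -b < x ∧ x ≤ b := fun x hx => by
    rw [Multiset.mem_toFinset, mem_roots hq0, IsRoot] at hx
    constructor
    · by_contra! hle
      rcases hle.eq_or_lt with rfl | hlt
      · exact (hend b hb.1).2 hx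
      · exact (hend (-x) (by linarith)).2 (by rwa [neg_neg])
    · by_contra! hlt
      exact (hend x (hb.1.trans hlt)).1 hx
  rw [h, rootsIn, Finset.filter_true_of_mem hall, rootFinset]
  simp only [hq]
  congr!

end count

end Fermat.Agent.RealClosure
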