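import Fermat.Agent.RealClosure.SignVariations

/-!
# Sturm sequences

The signed remainder sequence of a coprime pair ends in a constant, and between two of its members
that surround a zero member the sign changes. So the sign variations change only at the roots of
the first member, and there by one, when the second member has the sign of the derivative.
-/

set_option autoImplicit false
set_option linter.unusedSectionVars false

noncomputable section

open Polynomial

namespace Fermat.Agent.RealClosure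

open Fermat.Agent.HilbertSeventeen

variable {R : Type*} [Field R] [LinearOrder R] [IsStrictOrderedRing R]

/-- The sign variations of a list of polynomials at a point. -/
def varAt (l : List R[X]) (x : R) : ℕ := signVar (l.map (eval x))

/-- The last member has no root; the neighbours of a vanishing member have opposite signs. -/
inductive IsTail : List R[X] → Prop
  | single (h : R[X]) (hh : ∀ x, h.eval x ≠ 0) : IsTail [h]
  | cons (h k : R[X]) (l : List R[X]) (ht : IsTail (k :: l))
      (hz : ∀ x, k.eval x = 0 → h.eval x * (l.headD 0).eval x < 0) : IsTail (h :: k :: l)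

theorem IsTail.varAt_eq : ∀ {h : R[X]} {l : List R[X]}, IsTail (h :: l) → ∀ {c t : R},
    h.eval c ≠ 0 →
    (∀ g ∈ h :: l, g.eval c ≠ 0 → SignType.sign (g.eval t) = SignType.sign (g.eval c)) →
    varAt (h :: l) t = varAt (h :: l) c
  | h, [], _, c, t, hc, hs => signVar_map_eq [h] fun g hg =>
      hs g hg (by rw [List.mem_singleton.1 hg]; exact hc)
  | h, k :: l, ht, c, t, hc, hs => by
    have hh := hs h List.mem_cons_self hc
    have hc' : h.eval t ≠ 0 := fun e => hc (sign_eq_zero_iff.1 (by rw [← hh, e, sign_zero]))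
    cases ht with
    | cons _ _ _ ht' hz =>
    by_cases hk : k.eval c = 0
    · cases ht' with
      | single _ hh' => exact absurd hk (hh' c)
      | cons _ m l' ht'' hz' =>
      have h1 : h.eval c * m.eval c < 0 := hz c hk
      have hm : m.eval c ≠ 0 := right_ne_zero_of_mul h1.ne
      have hs' : ∀ g ∈ m :: l', g.eval c ≠ 0 →
          SignType.sign (g.eval t) = SignType.sign (g.eval c) :=
        fun g hg => hs g (List.mem_cons_of_mem _ (List.mem_cons_of_mem _ hg))
      have ih := IsTail.varAt_eq ht'' hm hs'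
      have hmt := hs' m List.mem_cons_self hm
      have h2 : h.eval t * m.eval t < 0 := sign_eq_neg_one_iff.1 (by
        rw [sign_mul, hh, hmt, ← sign_mul, sign_eq_neg_one_iff]
        exact h1)
      simp only [varAt, List.map_cons] at ih ⊢
      rw [signVar_middle h2, signVar_middle h1, ih]
    · have ih := IsTail.varAt_eq ht' hk fun g hg => hs g (List.mem_cons_of_mem _ hg)
      have hkt := hs k (List.mem_cons_of_mem _ List.mem_cons_self) hk
      have hk' : k.eval t ≠ 0 := fun e => hk (sign_eq_zero_iff.1 (by rw [← hkt, e, sign_zero]))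
      simp only [varAt, List.map_cons] at ih ⊢
      rw [signVar_cons_cons hc' hk', signVar_cons_cons hc hk, hh, hkt, ih]
  termination_by h l => l.length

/-- A Sturm chain with head `h` and second member `k`. -/
structure IsSturm (h k : R[X]) (l : List R[X]) : Prop where
  tail : IsTail (h :: k :: l)
  deriv_pos : ∀ c, h.eval c = 0 → 0 < h.derivative.eval c * k.eval c

theorem IsSturm.tail' {h k : R[X]} {l : List R[X]} (H : IsSturm h k l) : IsTail (k :: l) := by
  cases H.tail with
  | cons _ _ _ ht _ => exact ht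

theorem IsSturm.ne_zero {h k : R[X]} {l : List R[X]} (H : IsSturm h k l) : h ≠ 0 := fun e => by
  simpa [e] using H.deriv_pos 0

variable [PolyIVT R]

/-- The points where some member of the list vanishes. -/
def zeroSet (l : List R[X]) : Finset R := by
  classical exact (l.map fun g => g.roots.toFinset).foldr (· ∪ ·) ∅

theorem mem_zeroSet {l : List R[X]} {g : R[X]} (hg : g ∈ l) (h0 : g ≠ 0) {x : R}
    (hx : g.eval x = 0) : x ∈ zeroSet l := by
  classical
  rw [zeroSet]
  induction l with
  | nil => simp at hg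
  | cons a l ih =>
    rw [List.map_cons, List.foldr_cons, Finset.mem_union]
    rcases List.mem_cons.1 hg with rfl | hg
    · exact Or.inl (Multiset.mem_toFinset.2 ((mem_roots h0).2 hx))
    · exact Or.inr (ih hg)

/-- Nonzero values keep their sign up to a point with nothing in between. -/
theorem sign_eval_eq {l : List R[X]} {c t : R}
    (hfree : ∀ z ∈ zeroSet l, (c < z ∧ z ≤ t ∨ t ≤ z ∧ z < c) → False)
    {g : R[X]} (hg : g ∈ l) (hne : g.eval c ≠ 0) :
    SignType.sign (g.eval t) = SignType.sign (g.eval c) := by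
  have h0 : g ≠ 0 := fun e => hne (by rw [e, eval_zero])
  rcases lt_trichotomy c t with hct | rfl | hct
  · exact (sign_eq_of_no_root g hct.le hne
      (fun e => hfree t (mem_zeroSet hg h0 e) (Or.inl ⟨hct, le_rfl⟩))
      fun z h1 h2 e => hfree z (mem_zeroSet hg h0 e) (Or.inl ⟨h1, h2.le⟩)).symm
  · rfl
  · exact sign_eq_of_no_root g hct.le
      (fun e => hfree t (mem_zeroSet hg h0 e) (Or.inr ⟨le_rfl, hct⟩)) hne
      fun z h1 h2 e => hfree z (mem_zeroSet hg h0 e) (Or.inr ⟨h1.le, h2⟩)

/-- The variations at a point next to `c`. -/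
theorem IsSturm.varAt_near {h k : R[X]} {l : List R[X]} (H : IsSturm h k l) {c t : R} (hct : c ≠ t)
    (hfree : ∀ z ∈ zeroSet (h :: k :: l), (c < z ∧ z ≤ t ∨ t ≤ z ∧ z < c) → False) :
    varAt (h :: k :: l) t =
      varAt (h :: k :: l) c + if h.eval c = 0 ∧ t < c then 1 else 0 := by
  by_cases hc : h.eval c = 0
  swap
  · rw [if_neg fun e => hc e.1, add_zero]
    exact H.tail.varAt_eq hc fun g hg => sign_eval_eq hfree hg
  have hpos := H.deriv_pos c hc
  have hkc : k.eval c ≠ 0 := right_ne_zero_of_mul hpos.ne'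
  obtain ⟨u, hu⟩ : (X - C c) ∣ h := dvd_iff_isRoot.2 hc
  have huc : u.eval c = h.derivative.eval c := by rw [hu]; simp [derivative_mul]
  have hu0 : u.eval c ≠ 0 := by rw [huc]; exact left_ne_zero_of_mul hpos.ne'
  have hroot : ∀ z, u.eval z = 0 → z ∈ zeroSet (h :: k :: l) := fun z hz =>
    mem_zeroSet List.mem_cons_self H.ne_zero (by rw [hu, eval_mul, hz, mul_zero])
  have hut : SignType.sign (u.eval t) = SignType.sign (u.eval c) := by
    rcases hct.lt_or_gt with hlt | hlt
    · exact (sign_eq_of_no_root u hlt.le hu0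
        (fun e => hfree t (hroot t e) (Or.inl ⟨hlt, le_rfl⟩))
        fun z h1 h2 e => hfree z (hroot z e) (Or.inl ⟨h1, h2.le⟩)).symm
    · exact sign_eq_of_no_root u hlt.le
        (fun e => hfree t (hroot t e) (Or.inr ⟨le_rfl, hlt⟩)) hu0
        fun z h1 h2 e => hfree z (hroot z e) (Or.inr ⟨h1.le, h2⟩)
  have hkt : SignType.sign (k.eval t) = SignType.sign (k.eval c) :=
    sign_eval_eq hfree (List.mem_cons_of_mem _ List.mem_cons_self) hkc
  have hku : SignType.sign (k.eval c) = SignType.sign (u.eval c) := by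
    rw [huc]
    rcases mul_pos_iff.1 hpos with ⟨h1, h2⟩ | ⟨h1, h2⟩ <;> simp [h1, h2]
  have hht : SignType.sign (h.eval t) = SignType.sign (t - c) * SignType.sign (k.eval t) := by
    rw [hkt, hku, ← hut, ← sign_mul, hu, eval_mul, eval_sub, eval_X, eval_C]
  have hk0 : k.eval t ≠ 0 := fun e => hkc (sign_eq_zero_iff.1 (by rw [← hkt, e, sign_zero]))
  have hh0 : h.eval t ≠ 0 := fun e => by
    rw [e, sign_zero, eq_comm, mul_eq_zero, sign_eq_zero_iff, sign_eq_zero_iff, sub_eq_zero] at hht
    exact hht.elim hct.symm hk0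
  have ih := H.tail'.varAt_eq hkc fun g hg => sign_eval_eq hfree (List.mem_cons_of_mem _ hg)
  simp only [varAt, List.map_cons] at ih ⊢
  rw [signVar_cons_cons hh0 hk0, ih, hc, signVar_zero_cons, hht]
  rcases hct.lt_or_gt with hlt | hlt
  · simp [hlt.not_gt, sub_pos.2 hlt]
  · rcases hk0.lt_or_gt with h1 | h1 <;> simp [h1, sub_neg.2 hlt, hlt, add_comm]

/-- The roots in `(a, b]`. -/
def rootsIn (h : R[X]) (a b : R) : Finset R := by
  classical exact h.roots.toFinset.filter fun x => a < x ∧ x ≤ b

theorem mem_rootsIn {h : R[X]} (h0 : h ≠ 0) {a b x : R} :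
    x ∈ rootsIn h a b ↔ h.eval x = 0 ∧ a < x ∧ x ≤ b := by
  classical
  rw [rootsIn, Finset.mem_filter, Multiset.mem_toFinset, mem_roots h0, IsRoot]

theorem card_rootsIn_add {h : R[X]} (h0 : h ≠ 0) {a z b : R} (haz : a ≤ z) (hzb : z ≤ b) :
    (rootsIn h a b).card = (rootsIn h a z).card + (rootsIn h z b).card := by
  classical
  rw [← Finset.card_union_of_disjoint (Finset.disjoint_left.2 fun x h1 h2 =>
    absurd ((mem_rootsIn h0).1 h1).2.2 ((mem_rootsIn h0).1 h2).2.1.not_ge)]
  congr 1
  ext x
  rw [Finset.mem_union, mem_rootsIn h0, mem_rootsIn h0, mem_rootsIn h0]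
  refine ⟨fun ⟨e, h1, h2⟩ => ?_, ?_⟩
  · rcases le_or_gt x z with h3 | h3
    · exact Or.inl ⟨e, h1, h3⟩
    · exact Or.inr ⟨e, h3, h2⟩
  · rintro (⟨e, h1, h2⟩ | ⟨e, h1, h2⟩)
    · exact ⟨e, h1, h2.trans hzb⟩
    · exact ⟨e, haz.trans_lt h1, h2⟩

/-- **The variations of a Sturm chain drop by the number of roots.** -/
theorem IsSturm.varAt_sub {h k : R[X]} {l : List R[X]} (H : IsSturm h k l) {a b : R} (hab : a ≤ b) :
    varAt (h :: k :: l) a = varAt (h :: k :: l) b + (rootsIn h a b).card := by
  classical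
  induction hn : ((zeroSet (h :: k :: l)).filter fun z => a < z ∧ z < b).card
    using Nat.strong_induction_on generalizing a b with
  | _ n ih =>
  rcases hab.eq_or_lt with rfl | hlt
  · rw [Finset.card_eq_zero.2 (Finset.eq_empty_of_forall_notMem fun x hx => ?_), add_zero]
    exact absurd ((mem_rootsIn H.ne_zero).1 hx).2.2 ((mem_rootsIn H.ne_zero).1 hx).2.1.not_ge
  by_cases hz : ∃ z ∈ zeroSet (h :: k :: l), a < z ∧ z < b
  · obtain ⟨z, hz, haz, hzb⟩ := hz
    have hlt' : ∀ a' b', a ≤ a' → b' ≤ b → ¬ (a' < z ∧ z < b') →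
        ((zeroSet (h :: k :: l)).filter fun x => a' < x ∧ x < b').card < n := by
      intro a' b' ha hb hne
      rw [← hn]
      refine Finset.card_lt_card ((Finset.ssubset_iff_of_subset fun x hx => ?_).2
        ⟨z, Finset.mem_filter.2 ⟨hz, haz, hzb⟩, fun hx => hne (Finset.mem_filter.1 hx).2⟩)
      obtain ⟨hx, h1, h2⟩ := Finset.mem_filter.1 hx
      exact Finset.mem_filter.2 ⟨hx, ha.trans_lt h1, h2.trans_le hb⟩
    rw [ih _ (hlt' a z le_rfl hzb.le fun e => lt_irrefl _ e.2) haz.le rfl,
      ih _ (hlt' z b haz.le le_rfl fun e => lt_irrefl _ e.1) hzb.le rfl,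
      card_rootsIn_add H.ne_zero haz.le hzb.le]
    ring
  · push Not at hz
    have hm1 : a < (a + b) / 2 := left_lt_add_div_two.2 hlt
    have hm2 : (a + b) / 2 < b := add_div_two_lt_right.2 hlt
    have e1 := H.varAt_near hm1.ne fun z hz' hc => by
      rcases hc with ⟨h1, h2⟩ | ⟨h1, h2⟩
      · linarith [hz z hz' h1]
      · linarith
    have e2 := H.varAt_near hm2.ne' fun z hz' hc => by
      rcases hc with ⟨h1, h2⟩ | ⟨h1, h2⟩
      · linarith
      · linarith [hz z hz' (by linarith)]
    rw [if_neg fun e => absurd e.2 hm1.not_gt, add_zero] at e1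
    rw [← e1, e2]
    congr 1
    have key : ∀ x, x ∈ rootsIn h a b → x = b := fun x hx => by
      obtain ⟨e, h1, h2⟩ := (mem_rootsIn H.ne_zero).1 hx
      exact le_antisymm h2 (hz x (mem_zeroSet List.mem_cons_self H.ne_zero e) h1)
    by_cases hb : h.eval b = 0
    · rw [if_pos ⟨hb, hm2⟩, show rootsIn h a b = {b} from Finset.eq_singleton_iff_unique_mem.2
        ⟨(mem_rootsIn H.ne_zero).2 ⟨hb, hlt, le_rfl⟩, key⟩, Finset.card_singleton]
    · rw [if_neg fun e => hb e.1, Finset.card_eq_zero.2 (Finset.eq_empty_of_forall_notMem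
        fun x hx => hb (key x hx ▸ ((mem_rootsIn H.ne_zero).1 hx).1))]

end Fermat.Agent.RealClosure
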